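/-
S56 / W-BASE / Euler characteristic, leaf P1-CHAR (helper184): the `H¹` term of CHAR-EULER-BIG

`F/ℚ` a finite Galois level unramified outside `S ∋ p`, `U = G_F = F.fixingSubgroup`,
`X = Ind_U μ_p = indRep U (mu p)`, `X′ = X.dualTwist χ_p`, `σ ∈ G_ℚ`, `R_σ = H419.indR U μ σ`.
If `H¹_S(Ind_U 𝔼)[p] = 0` (`NoPTorsH1E p S U`, leaf EUL-CL) then

  `charpoly(R_σ | H¹_S(X)) · charpoly(R_σ | H⁰(G_ℚ, X′))
      = charpoly(R_σ | H⁰(G_ℚ, X)) · charpoly(R_σ | X^{c=-1}) · ∏_{q ∈ S} charpoly(R_σ | H⁰(G_q, X′))`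

(`p1Char`), and in explicit form (`p1Char_perm`)

  `charpoly(R_σ | H¹_S(X)) · (X - 1) = charpoly(R_σ | H⁰(G_ℚ, X)) ·
      permCharpoly (τ⁻¹ | InfinitePlace F) · permCharpoly (primePerm ℚ F (primesT S) τ)`.

Proof: `H419.herb_H0` (= `Euler.H896.herbCharpoly` + EUL-H0) applied to the model
`(H¹_S(X), kumMap ∘ dictE, pushH1 R_σ)` of `E_S(F)/p` (leaf EUL-KUM, `Kum.lean`, and the
dictionary `Dict.lean`) and to the model `μ_p(F) = (Additive Fˣ)[p]` of the roots of unity.
-/
import Fermat.Agent.S56.Euler.H184.Dict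

set_option autoImplicit false
set_option linter.unusedSectionVars false
set_option linter.style.haveILetI false

noncomputable section

namespace Fermat.Agent.S56.Euler.H184

open groupCohomology Fermat.Agent.S55 Fermat.Agent.S55.PT Fermat.Agent.S55.K
  Fermat.Agent.S55.Bridge ExtCitation NumberField IsDedekindDomain Polynomial

attribute [local instance] Fermat.Agent.S55.Bridge.isAlgebraic_Qbar
  Fermat.Agent.S55.Bridge.isGalois_Qbar

/-! ### The model `μ_p(F) = (Additive Fˣ)[p]` -/

section MuModel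

variable (p : ℕ) [Fact p.Prime] (F : Type) [Field F]

/-- The `p`-torsion of `Fˣ` (additively). -/
def torsP : AddSubgroup (Additive Fˣ) := (nsmulAddMonoidHom (α := Additive Fˣ) p).ker

theorem mem_torsP (a : Additive Fˣ) : a ∈ torsP p F ↔ p • a = 0 := Iff.rfl

/-- `μ_p(F)` is an `𝔽_p`-vector space. -/
abbrev torsPModule : Module (ZMod p) ↥(torsP p F) :=
  AddCommGroup.zmodModule (fun x => Subtype.ext ((mem_torsP p F x.1).1 x.2))

theorem finite_torsP : Finite ↥(torsP p F) := by
  have hp : p.Prime := Fact.out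
  haveI : NeZero p := ⟨hp.ne_zero⟩
  let f : ↥(torsP p F) → rootsOfUnity p F := fun w =>
    ⟨(w.1 : Additive Fˣ).toMul, by
      rw [mem_rootsOfUnity]
      have h := congrArg Additive.toMul ((mem_torsP p F w.1).1 w.2)
      rw [toMul_nsmul, toMul_zero] at h
      exact h⟩
  have hf : Function.Injective f := by
    intro a b h
    apply Subtype.ext
    exact Additive.toMul.injective (congrArg Subtype.val h)
  exact Finite.of_injective f hf

/-- The endomorphism of `μ_p(F)` induced by an additive endomorphism of `Fˣ`. -/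
def torsPEnd (f : Additive Fˣ →+ Additive Fˣ) :
    letI := torsPModule p F
    ↥(torsP p F) →ₗ[ZMod p] ↥(torsP p F) :=
  letI := torsPModule p F
  AddMonoidHom.toZModLinearMap p
    ((f.comp (torsP p F).subtype).codRestrict (torsP p F) (fun w => by
      rw [mem_torsP]
      show p • f w.1 = 0
      rw [← map_nsmul, (mem_torsP p F w.1).1 w.2, map_zero]))

theorem coe_torsPEnd (f : Additive Fˣ →+ Additive Fˣ) (w : ↥(torsP p F)) :
    ((torsPEnd p F f w : ↥(torsP p F)) : Additive Fˣ) = f w.1 := rfl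

end MuModel

/-! ### The `H¹` term -/

section Main

variable (p : ℕ) [Fact p.Prime] (F : IntermediateField ℚ (AlgebraicClosure ℚ)) [NumberField F]
  [IsGalois ℚ F] [FiniteDimensional ℚ F] (S : Finset Nat.Primes)
  (hF : F.IsUnramifiedOutside S) (hpS : pPrime p ∈ S)

omit [NumberField F] [IsGalois ℚ F] [FiniteDimensional ℚ F] in
theorem fixingSubgroup_mem_levels (hF : F.IsUnramifiedOutside S) :
    F.fixingSubgroup ∈ (globalLevels S).levels := ⟨F, hF, rfl⟩

/-- The model map `E_T(F) → H¹_S(Ind_U μ_p)`. -/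
def kumPi : ↥(G.sUnits ℚ F (H419.primesT S)) →+
    (globalLevels S).H1 (indRep F.fixingSubgroup (mu p)) :=
  (kumMap p S F.fixingSubgroup hpS (fixingSubgroup_mem_levels F S hF)).comp (dictE F S hF)

theorem kumPi_apply (x : ↥(G.sUnits ℚ F (H419.primesT S))) :
    kumPi p F S hF hpS x =
      kumMap p S F.fixingSubgroup hpS (fixingSubgroup_mem_levels F S hF) (dictE F S hF x) := rfl

theorem kumPi_surjective (hcl : NoPTorsH1E p S F.fixingSubgroup) :
    Function.Surjective (kumPi p F S hF hpS) :=
  (kumMap_surjective p S F.fixingSubgroup hpS (fixingSubgroup_mem_levels F S hF) hcl).comp (dictE_surjective F S hF)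

theorem kumPi_eq_zero (a : ↥(G.sUnits ℚ F (H419.primesT S)))
    (ha : kumPi p F S hF hpS a = 0) : ∃ b, a = p • b := by
  rw [kumPi_apply, kumMap_eq_zero_iff] at ha
  obtain ⟨e', he'⟩ := ha
  obtain ⟨b, rfl⟩ := dictE_surjective F S hF e'
  refine ⟨b, dictE_injective F S hF ?_⟩
  rw [he', map_nsmul]

theorem kumPi_equivariant (σ : PT.GQ) (a b : ↥(G.sUnits ℚ F (H419.primesT S)))
    (hab : (b : Additive Fˣ) = G.unitsHom ℚ F (H419.resF F σ) a) :
    kumPi p F S hF hpS b =
      pushH1 (A := indRep F.fixingSubgroup (mu p)) (B := indRep F.fixingSubgroup (mu p))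
        (H419.indR F.fixingSubgroup (mu p) σ)
        (H419.indR_equivariant F.fixingSubgroup (mu p) σ) (globalLevels S)
        (kumPi p F S hF hpS a) := by
  rw [kumPi_apply, kumPi_apply, dictE_unitsHom F S hF σ a b hab, kumMap_equivariant]

include hF hpS in
/-- **P1-CHAR** (`H⁰` form). -/
theorem p1Char (hcl : NoPTorsH1E p S F.fixingSubgroup) (σ : PT.GQ)
    [Module.Finite (ZMod p) ((globalLevels S).H1 (indRep F.fixingSubgroup (mu p)))] :
    (pushH1 (A := indRep F.fixingSubgroup (mu p)) (B := indRep F.fixingSubgroup (mu p))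
        (H419.indR F.fixingSubgroup (mu p) σ)
        (H419.indR_equivariant F.fixingSubgroup (mu p) σ) (globalLevels S)).charpoly *
        (pushH0 (A := (indRep F.fixingSubgroup (mu p)).dualTwist (cycloChar p))
          (B := (indRep F.fixingSubgroup (mu p)).dualTwist (cycloChar p))
          (H419.indRDual F.fixingSubgroup (mu p) σ)
          (H419.indRDual_equivariant F.fixingSubgroup (mu p) (cycloChar p) σ)).charpoly =
      (pushH0 (A := indRep F.fixingSubgroup (mu p)) (B := indRep F.fixingSubgroup (mu p))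
          (H419.indR F.fixingSubgroup (mu p) σ)
          (H419.indR_equivariant F.fixingSubgroup (mu p) σ)).charpoly *
        (H419.minusR complexConjugation F.fixingSubgroup (mu p) σ).charpoly *
        ∏ q ∈ S, (pushH0
          (A := Rep.res (rl q) ((indRep F.fixingSubgroup (mu p)).dualTwist (cycloChar p)))
          (B := Rep.res (rl q) ((indRep F.fixingSubgroup (mu p)).dualTwist (cycloChar p)))
          (H419.indRDual F.fixingSubgroup (mu p) σ)
          (H419.indRDual_res_equivariant (rl q) F.fixingSubgroup (mu p) (cycloChar p)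
            σ)).charpoly := by
  letI := torsPModule p F
  haveI : Finite ↥(torsP p F) := finite_torsP p F
  haveI : Module.Finite (ZMod p) ↥(torsP p F) := Module.Finite.of_finite
  exact H419.herb_H0 p F S σ
    (pushH1 (A := indRep F.fixingSubgroup (mu p)) (B := indRep F.fixingSubgroup (mu p))
        (H419.indR F.fixingSubgroup (mu p) σ)
        (H419.indR_equivariant F.fixingSubgroup (mu p) σ) (globalLevels S))
    (kumPi p F S hF hpS) (kumPi_surjective p F S hF hpS hcl)
    (kumPi_eq_zero p F S hF hpS) (kumPi_equivariant p F S hF hpS σ)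
    (torsPEnd p F (G.unitsHom ℚ F (H419.resF F σ))) (torsP p F).subtype
    Subtype.val_injective
    (fun a => ⟨fun ⟨w, hw⟩ => hw ▸ w.2, fun h => ⟨⟨a, h⟩, rfl⟩⟩)
    (fun w => rfl)

end Main

end Fermat.Agent.S56.Euler.H184

end
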