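/-
S56 / W-BASE / Euler characteristic, leaf EUL-KUM = KUM-EQ (helper184).
Route memo: `coord/S56-EULER-helper366.md` §1 (3b).

`p ∈ S`, `U` a NORMAL level of `globalLevels S` (`U = G_F`, `F/ℚ` finite Galois unramified outside
`S`), `𝔼 = K.sUnits S` the `S`-units of `ℚ̄`, `E_U = fixU U 𝔼 = 𝒪_{F,S}ˣ`.  The Kummer map

  `δ : E_U →+ H¹_S(G_ℚ, Ind_U μ_p)`     (`= H¹(G_{F,S}, μ_p)` by Shapiro)

* has kernel `p • E_U`;
* intertwines the Galois action of `σ ∈ G_ℚ` on `E_U` with the right translation
  `H419.indR U μ σ` on `Ind_U μ` (the `Gal(F/ℚ)`-module structure of `H¹_S(Ind_U μ)` used in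
  Tate's Euler characteristic formula);
* is onto as soon as `H¹_S(Ind_U 𝔼)` has no `p`-torsion (`NoPTorsH1E`, cochain form; this holds
  when `Cl_S(F)[p] = 0`), and in general its image consists of the classes dying in
  `H¹_S(Ind_U 𝔼)` (`mem_range_kumMap_iff`).

Hence `(H¹_S(Ind_U μ), δ, pushH1 (indR σ))` is a MODEL of `E_U / p` with the action of `σ`.

Main results: `kumMap`, `kumMap_eq_zero_iff`, `kumMap_equivariant`, `kumMap_surjective`,
`mem_range_kumMap_iff`, `kumEq : KumEqStatement p S`.
-/
import Fermat.Agent.S56.Euler.H184.KumInd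
import Fermat.Agent.S55.K.AdapterPTH723
import Fermat.Agent.S55.K.KummerH724

set_option autoImplicit false
set_option linter.unusedSectionVars false
set_option linter.style.haveILetI false

noncomputable section

namespace Fermat.Agent.S56.Euler.H184

open groupCohomology Fermat.Agent.S55 Fermat.Agent.S55.PT Fermat.Agent.S55.K Fermat.Agent.S55.Bridge ExtCitation

variable (p : ℕ) [Fact p.Prime] (S : Finset Nat.Primes)

/-! ### The statement -/

/-- `H¹_S(Ind_U 𝔼)[p] = 0`, cochain form (true when `Cl_S(K_U)[p] = 0`). -/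
def NoPTorsH1E (U : Subgroup PT.GQ) : Prop :=
  ∀ z ∈ (globalLevels S).Z1 (indG U (sUnits S)),
    p • z ∈ LevelSys.B1 (indG U (sUnits S)) → z ∈ LevelSys.B1 (indG U (sUnits S))

/-- **KUM-EQ.**  For every normal level `U` there is a Kummer map
`δ : E_U →+ H¹_S(Ind_U μ)` with kernel `p • E_U`, equivariant for `σ ↦ indR U μ σ`, and onto
when `H¹_S(Ind_U 𝔼)[p] = 0`. -/
def KumEqStatement : Prop :=
  pPrime p ∈ S → ∀ (U : Subgroup PT.GQ) [U.Normal], U ∈ (globalLevels S).levels →
    ∃ δ : ↥(fixU U (sUnits S)) →+ (globalLevels S).H1 (indRep U (mu p)),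
      (∀ e, δ e = 0 ↔ ∃ e' : ↥(fixU U (sUnits S)), e = p • e') ∧
      (∀ (σ : PT.GQ) (e : ↥(fixU U (sUnits S))),
        δ (fixUAct U (sUnits S) σ e) =
          pushH1 (A := indRep U (mu p)) (B := indRep U (mu p))
            (Fermat.Agent.S56.H419.indR U (mu p) σ)
            (Fermat.Agent.S56.H419.indR_equivariant U (mu p) σ) (globalLevels S) (δ e)) ∧
      (NoPTorsH1E p S U → Function.Surjective δ)

/-! ### The Kummer sequence of `Ind_U` -/

variable (U : Subgroup PT.GQ)

/-- `0 → Ind_U μ_p → Ind_U 𝔼 → Ind_U 𝔼` is a Kummer sequence for `globalLevels S` (`p ∈ S`). -/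
theorem isKummerSeq_ind (hpS : pPrime p ∈ S) (hU : U ∈ (globalLevels S).levels) :
    IsKummerSeq (M := indG U (muP p)) (E := indG U (sUnits S)) (globalLevels S) p
      (indMuToE p S U) where
  inj := H397.indMuToE_injective p S U
  equi := H397.indMuToE_equivariant p S U
  tors := H397.indMuToE_tors p S U
  kum := H397.kummer_ind (L := globalLevels S) (sUnits S)
    (globalLevels_normal_cofinal724 S : (globalLevels S).NormalCofinal) p
    (fun x hx => Fermat.Agent.S55.K.H724.kummer p S hpS x hx) hU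
  killed := H397.ind_nsmul_p p U

/-! ### Comparison of the two models of `Ind_U μ` -/

lemma toK_ofK (a : (PT.GQ ⧸ U) →₀ (muP p : Rep.{0, 0, 0} (ZMod p) PT.GQ)) :
    H723.toK p U (H723.ofK p U a) = a := by
  have h : (H723.toK p U) ∘ₗ (H723.ofK p U) = LinearMap.id := by
    apply Finsupp.lhom_ext
    intro x m
    rw [LinearMap.comp_apply, H723.ofK_single, H723.toK_single, LinearEquiv.apply_symm_apply]
    rfl
  exact LinearMap.congr_fun h a

/-- The transport `H¹_S(Ind_U μ_p) → H¹_S(Ind_U μ)` from the `K` model to the `PT` model. -/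
def h1OfK : (globalLevels S).H1 (indG U (muP p)) →ₗ[ZMod p] (globalLevels S).H1 (indRep U (mu p)) :=
  pushH1 (A := indG U (muP p)) (B := indRep U (mu p)) (H723.ofK p U) (H723.ofK_equivariant p U)
    (globalLevels S)

/-- The transport `H¹_S(Ind_U μ) → H¹_S(Ind_U μ_p)` from the `PT` model to the `K` model. -/
def h1ToK : (globalLevels S).H1 (indRep U (mu p)) →ₗ[ZMod p] (globalLevels S).H1 (indG U (muP p)) :=
  pushH1 (A := indRep U (mu p)) (B := indG U (muP p)) (H723.toK p U) (H723.toK_equivariant p U)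
    (globalLevels S)

lemma h1ToK_h1OfK (x : (globalLevels S).H1 (indG U (muP p))) :
    h1ToK p S U (h1OfK p S U x) = x := by
  obtain ⟨c, rfl⟩ := (globalLevels S).H1π_surjective _ x
  have hc : pushZ1 (A := indRep U (mu p)) (B := indG U (muP p)) (H723.toK p U)
      (H723.toK_equivariant p U) (globalLevels S)
      (pushZ1 (A := indG U (muP p)) (B := indRep U (mu p)) (H723.ofK p U)
        (H723.ofK_equivariant p U) (globalLevels S) c) = c := by
    apply Subtype.ext
    funext g
    exact toK_ofK p U _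
  exact congrArg ((globalLevels S).H1π (indG U (muP p))) hc

lemma h1OfK_h1ToK (x : (globalLevels S).H1 (indRep U (mu p))) :
    h1OfK p S U (h1ToK p S U x) = x := by
  obtain ⟨c, rfl⟩ := (globalLevels S).H1π_surjective _ x
  have hc : pushZ1 (A := indG U (muP p)) (B := indRep U (mu p)) (H723.ofK p U)
      (H723.ofK_equivariant p U) (globalLevels S)
      (pushZ1 (A := indRep U (mu p)) (B := indG U (muP p)) (H723.toK p U)
        (H723.toK_equivariant p U) (globalLevels S) c) = c := by
    apply Subtype.ext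
    funext g
    exact H723.ofK_toK p U _
  exact congrArg ((globalLevels S).H1π (indRep U (mu p))) hc

lemma h1OfK_injective : Function.Injective (h1OfK p S U) :=
  Function.LeftInverse.injective (h1ToK_h1OfK p S U)

lemma h1OfK_surjective : Function.Surjective (h1OfK p S U) :=
  Function.RightInverse.surjective (h1OfK_h1ToK p S U)

/-- Right translation in the `K` model, as an equivariant endomorphism of `Ind_U μ_p`. -/
lemma rTr_isEquivariant [U.Normal] (σ : PT.GQ) :
    IsEquivariant (A := indG U (muP p)) (B := indG U (muP p)) (rTr U (muP p) σ) :=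
  fun g a => rTr_equivariant U (muP p) σ g a

/-- `ofK` intertwines the right translations of the two models. -/
lemma ofK_rTr [U.Normal] (σ : PT.GQ) (a : (PT.GQ ⧸ U) →₀ (muP p : Rep.{0, 0, 0} (ZMod p) PT.GQ)) :
    H723.ofK p U (rTr U (muP p) σ a) =
      Fermat.Agent.S56.H419.indR U (mu p) σ (H723.ofK p U a) := by
  have h : (H723.ofK p U) ∘ₗ (rTr U (muP p) σ) =
      (Fermat.Agent.S56.H419.indR U (mu p) σ) ∘ₗ (H723.ofK p U) := by
    apply Finsupp.lhom_ext
    intro x m
    rw [LinearMap.comp_apply, LinearMap.comp_apply, rTr_single, H723.ofK_single,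
      H723.ofK_single, Fermat.Agent.S56.H419.indR_single]
  exact LinearMap.congr_fun h a

lemma h1OfK_rTr [U.Normal] (σ : PT.GQ) (x : (globalLevels S).H1 (indG U (muP p))) :
    h1OfK p S U (pushH1 (A := indG U (muP p)) (B := indG U (muP p)) (rTr U (muP p) σ)
        (rTr_isEquivariant p U σ) (globalLevels S) x) =
      pushH1 (A := indRep U (mu p)) (B := indRep U (mu p))
        (Fermat.Agent.S56.H419.indR U (mu p) σ)
        (Fermat.Agent.S56.H419.indR_equivariant U (mu p) σ) (globalLevels S)
        (h1OfK p S U x) := by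
  obtain ⟨c, rfl⟩ := (globalLevels S).H1π_surjective _ x
  have hc : pushZ1 (A := indG U (muP p)) (B := indRep U (mu p)) (H723.ofK p U)
      (H723.ofK_equivariant p U) (globalLevels S)
      (pushZ1 (A := indG U (muP p)) (B := indG U (muP p)) (rTr U (muP p) σ)
        (rTr_isEquivariant p U σ) (globalLevels S) c) =
      pushZ1 (A := indRep U (mu p)) (B := indRep U (mu p))
        (Fermat.Agent.S56.H419.indR U (mu p) σ)
        (Fermat.Agent.S56.H419.indR_equivariant U (mu p) σ) (globalLevels S)
        (pushZ1 (A := indG U (muP p)) (B := indRep U (mu p)) (H723.ofK p U)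
          (H723.ofK_equivariant p U) (globalLevels S) c) := by
    apply Subtype.ext
    funext g
    exact ofK_rTr p U σ _
  exact congrArg ((globalLevels S).H1π (indRep U (mu p))) hc

/-! ### The Kummer map -/

section KumMap

variable [U.Normal] (hpS : pPrime p ∈ S) (hU : U ∈ (globalLevels S).levels)

/-- The Kummer map in the `K` model. -/
def kumMapK : ↥(fixU U (sUnits S)) →+ (globalLevels S).H1 (indG U (muP p)) :=
  haveI : U.FiniteIndex := H424.globalFiniteIndex S U hU
  (kumDelta (globalLevels S) p (indMuToE p S U) (isKummerSeq_ind p S U hpS hU)).comp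
    (toInv U (sUnits S))

/-- **The Kummer map** `E_U →+ H¹_S(Ind_U μ)`. -/
def kumMap : ↥(fixU U (sUnits S)) →+ (globalLevels S).H1 (indRep U (mu p)) :=
  (h1OfK p S U).toAddMonoidHom.comp (kumMapK p S U hpS hU)

theorem kumMapK_eq_zero_iff (e : ↥(fixU U (sUnits S))) :
    kumMapK p S U hpS hU e = 0 ↔ ∃ e' : ↥(fixU U (sUnits S)), e = p • e' := by
  haveI : U.FiniteIndex := H424.globalFiniteIndex S U hU
  show kumDelta (globalLevels S) p (indMuToE p S U) (isKummerSeq_ind p S U hpS hU)
    (toInv U (sUnits S) e) = 0 ↔ _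
  rw [kumDelta_eq_zero_iff]
  constructor
  · rintro ⟨f, hf⟩
    obtain ⟨e', rfl⟩ := toInv_surjective U (sUnits S) f
    refine ⟨e', toInv_injective U (sUnits S) ?_⟩
    rw [hf, toInv_nsmul]
  · rintro ⟨e', rfl⟩
    exact ⟨toInv U (sUnits S) e', toInv_nsmul U (sUnits S) p e'⟩

/-- **Kernel of the Kummer map.** -/
theorem kumMap_eq_zero_iff (e : ↥(fixU U (sUnits S))) :
    kumMap p S U hpS hU e = 0 ↔ ∃ e' : ↥(fixU U (sUnits S)), e = p • e' := by
  rw [← kumMapK_eq_zero_iff p S U hpS hU]
  show h1OfK p S U (kumMapK p S U hpS hU e) = 0 ↔ _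
  constructor
  · intro h
    exact h1OfK_injective p S U (h.trans (map_zero _).symm)
  · intro h
    rw [h, map_zero]

theorem kumMapK_equivariant (σ : PT.GQ) (e : ↥(fixU U (sUnits S))) :
    kumMapK p S U hpS hU (fixUAct U (sUnits S) σ e) =
      pushH1 (A := indG U (muP p)) (B := indG U (muP p)) (rTr U (muP p) σ)
        (rTr_isEquivariant p U σ) (globalLevels S) (kumMapK p S U hpS hU e) := by
  haveI : U.FiniteIndex := H424.globalFiniteIndex S U hU
  exact kumDelta_natural (isKummerSeq_ind p S U hpS hU) (rTr U (muP p) σ)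
    (rTr_isEquivariant p U σ) (rTr U (sUnits S) σ).toAddMonoidHom
    (fun g a => rTr_equivariant U (sUnits S) σ g a)
    (fun m => rTr_mapRange U (muP p) (sUnits S) (muToE p S) σ m)
    (toInv U (sUnits S) e) (toInv U (sUnits S) (fixUAct U (sUnits S) σ e))
    (rTr_toInv U (sUnits S) σ e).symm

/-- **Equivariance of the Kummer map**: the Galois action on `E_U` becomes the right
translation on `Ind_U μ`. -/
theorem kumMap_equivariant (σ : PT.GQ) (e : ↥(fixU U (sUnits S))) :
    kumMap p S U hpS hU (fixUAct U (sUnits S) σ e) =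
      pushH1 (A := indRep U (mu p)) (B := indRep U (mu p))
        (Fermat.Agent.S56.H419.indR U (mu p) σ)
        (Fermat.Agent.S56.H419.indR_equivariant U (mu p) σ) (globalLevels S)
        (kumMap p S U hpS hU e) := by
  show h1OfK p S U (kumMapK p S U hpS hU (fixUAct U (sUnits S) σ e)) = _
  rw [kumMapK_equivariant, h1OfK_rTr]
  rfl

/-- **Image of the Kummer map** (`K` model): the classes which die in `H¹_S(Ind_U 𝔼)`. -/
theorem mem_range_kumMapK_iff (c : ↥((globalLevels S).Z1 (indG U (muP p)))) :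
    (globalLevels S).H1π (indG U (muP p)) c ∈ Set.range (kumMapK p S U hpS hU) ↔
      (fun g => indMuToE p S U ((c : PT.GQ → indG U (muP p)) g)) ∈
        LevelSys.B1 (indG U (sUnits S)) := by
  haveI : U.FiniteIndex := H424.globalFiniteIndex S U hU
  rw [← mem_range_kumDelta_iff (isKummerSeq_ind p S U hpS hU) c]
  constructor
  · rintro ⟨e, he⟩
    exact ⟨toInv U (sUnits S) e, he⟩
  · rintro ⟨f, hf⟩
    obtain ⟨e, rfl⟩ := toInv_surjective U (sUnits S) f
    exact ⟨e, hf⟩

/-- **Image of the Kummer map**: the classes which die in `H¹_S(Ind_U 𝔼)`. -/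
theorem mem_range_kumMap_iff (c : ↥((globalLevels S).Z1 (indRep U (mu p)))) :
    (globalLevels S).H1π (indRep U (mu p)) c ∈ Set.range (kumMap p S U hpS hU) ↔
      (fun g => indMuToE p S U (H723.toK p U ((c : PT.GQ → indRep U (mu p)) g))) ∈
        LevelSys.B1 (indG U (sUnits S)) := by
  refine Iff.trans ?_ (mem_range_kumMapK_iff p S U hpS hU
    (pushZ1 (A := indRep U (mu p)) (B := indG U (muP p))
      (H723.toK p U) (H723.toK_equivariant p U) (globalLevels S) c))
  constructor
  · rintro ⟨e, he⟩
    refine ⟨e, ?_⟩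
    have h1 : h1ToK p S U (kumMap p S U hpS hU e) = kumMapK p S U hpS hU e :=
      h1ToK_h1OfK p S U _
    rw [← h1, he]
    rfl
  · rintro ⟨e, he⟩
    refine ⟨e, ?_⟩
    show h1OfK p S U (kumMapK p S U hpS hU e) = _
    rw [he]
    exact h1OfK_h1ToK p S U ((globalLevels S).H1π (indRep U (mu p)) c)

/-- **Surjectivity of the Kummer map** when `H¹_S(Ind_U 𝔼)` has no `p`-torsion. -/
theorem kumMap_surjective (hcl : NoPTorsH1E p S U) :
    Function.Surjective (kumMap p S U hpS hU) := by
  haveI : U.FiniteIndex := H424.globalFiniteIndex S U hU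
  refine (h1OfK_surjective p S U).comp ?_
  exact (kumDelta_surjective (isKummerSeq_ind p S U hpS hU) hcl).comp
    (toInv_surjective U (sUnits S))

end KumMap

/-- **KUM-EQ** (leaf EUL-KUM of Tate's global Euler characteristic formula). -/
theorem kumEq : KumEqStatement p S := by
  intro hpS U _ hU
  exact ⟨kumMap p S U hpS hU, kumMap_eq_zero_iff p S U hpS hU,
    kumMap_equivariant p S U hpS hU, kumMap_surjective p S U hpS hU⟩

end Fermat.Agent.S56.Euler.H184

end
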