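/-
S56 / W-BASE / Euler characteristic, leaf P1-CHAR (helper184): the frozen input `H419.P1CharSpec p`
of the assembly `H419.charEulerBig_of` (`S56/H419/CharEulerAsm.lean`), UNCONDITIONALLY.

    theorem p1CharSpec : H419.P1CharSpec p

= `p1Char` (`P1.lean`: Kummer model `kumMap ∘ dictE` of `E_S(F)/p` + `H419.herb_H0`) with the
`H⁰` factors evaluated by `H419.H0Final`.
-/
import Fermat.Agent.S56.Euler.H184.P1
import Fermat.Agent.S56.H419.CharEulerAsm

set_option autoImplicit false
set_option linter.unusedSectionVars false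
set_option linter.style.haveILetI false

noncomputable section

namespace Fermat.Agent.S56.Euler.H184

open groupCohomology Fermat.Agent.S55 Fermat.Agent.S55.PT ExtCitation NumberField Polynomial

variable (p : ℕ) [Fact p.Prime]

/-- **P1-CHAR**, explicit form: for `F/ℚ` finite Galois unramified outside `S ∋ p`, `U = G_F`,
`χ_p|_U = 1` and `H¹_S(Ind_U 𝔼)[p] = 0`:
`cp(R_σ | H¹_S(Ind_U μ_p)) · (X - 1) = (X - χ_p(σ)) · permCharpoly (τ⁻¹ | InfinitePlace F) ·
permCharpoly (primePerm ℚ F (primesT S) τ)`, `τ = σ|_F`. -/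
theorem p1Char_perm (S : Finset Nat.Primes) (hpS : pPrime p ∈ S)
    (F : IntermediateField ℚ (AlgebraicClosure ℚ)) [NumberField F] [IsGalois ℚ F]
    [FiniteDimensional ℚ F] (hF : F.IsUnramifiedOutside S)
    (hχ : ∀ u ∈ F.fixingSubgroup, cycloChar p u = 1)
    (hcl : NoPTorsH1E p S F.fixingSubgroup) (σ : PT.GQ)
    [Module.Finite (ZMod p) ((globalLevels S).H1 (indRep F.fixingSubgroup (mu p)))] :
    (pushH1 (A := indRep F.fixingSubgroup (mu p)) (B := indRep F.fixingSubgroup (mu p))
        (H419.indR F.fixingSubgroup (mu p) σ)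
        (H419.indR_equivariant F.fixingSubgroup (mu p) σ) (globalLevels S)).charpoly *
        (X - 1) =
      (X - C (((cycloChar p σ : (ZMod p)ˣ) : ZMod p))) *
        H614.permCharpoly (ZMod p) (fun w : InfinitePlace F => (H419.resF F σ)⁻¹ • w) *
        H614.permCharpoly (ZMod p) (H614.primePerm ℚ F (H419.primesT S) (H419.resF F σ)) := by
  haveI : Module.Finite (ZMod p) (mu p) := inferInstanceAs (Module.Finite (ZMod p) (ZMod p))
  have h1 : Module.finrank (ZMod p) (mu p) = 1 := Module.finrank_self (ZMod p)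
  have h := p1Char p F S hF hpS hcl σ
  rw [H419.charpoly_H0_glob_tdual F.fixingSubgroup (mu p) (cycloChar p) (H419.mu_ρ_apply p) h1 σ,
    H419.charpoly_H0_ind_mu p F σ hχ,
    H419.charpoly_minus F (mu p) (H419.mu_ρ_complexConjugation p) h1 σ,
    H419.charpoly_H0_loc_tdual F (mu p) (cycloChar p) (H419.mu_ρ_apply p) h1 S σ] at h
  exact h

/-- **P1-CHAR**: the frozen input of `H419.charEulerBig_of`. -/
theorem p1CharSpec : H419.P1CharSpec p := by
  intro _ S hpS F _ _ _ hF hχ hcl σ _ hfin
  exact p1Char_perm p S hpS F hF hχ hcl σ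

end Fermat.Agent.S56.Euler.H184

end
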