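/-
S56 / W-BASE / Euler characteristic, leaf P1-CHAR, part 1 (helper184): the `S`-unit dictionary

`F/ℚ` a finite Galois level unramified outside `S`, `U = G_F = F.fixingSubgroup`.
The `T`-units of `F` in the sense of layer G (`G.sUnits ℚ F (primesT S)`, the vocabulary of
`Euler.H896.herbCharpoly`) are the `U`-invariants of the `S`-units `𝔼 = K.sUnits S` of `ℚ̄`
(the vocabulary of the Kummer map `kumMap`):

  `dictE : G.sUnits ℚ F (primesT S) ≃+ fixU U 𝔼`,   `dictE (τ x) = σ • dictE x`  (`τ = σ|_F`).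
-/
import Fermat.Agent.S56.Euler.H184.Kum
import Fermat.Agent.S56.H419.H0Herb
import Fermat.Agent.S55.Bridge.SUnitDict
import Fermat.Agent.S55.K.GO3H535.H371.CapDiv

set_option autoImplicit false
set_option linter.unusedSectionVars false
set_option linter.style.haveILetI false

noncomputable section

namespace Fermat.Agent.S56.Euler.H184

open groupCohomology Fermat.Agent.S55 Fermat.Agent.S55.PT Fermat.Agent.S55.K
  Fermat.Agent.S55.Bridge ExtCitation NumberField IsDedekindDomain

attribute [local instance] Fermat.Agent.S55.Bridge.isAlgebraic_Qbar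
  Fermat.Agent.S55.Bridge.isGalois_Qbar

section Dict

variable (F : IntermediateField ℚ (AlgebraicClosure ℚ)) [NumberField F] [IsGalois ℚ F]
  [FiniteDimensional ℚ F] (S : Finset Nat.Primes)

/-- `x ∈ ℚ̄ˣ` is an `S`-unit iff it is a unit at every place over a prime outside `S`. -/
theorem isSUnit_iff_forall_liesOver (y : K.Qbarˣ) :
    K.IsSUnit S y ↔ ∀ ℓ : Nat.Primes, ℓ ∉ S → ∀ A : ValuationSubring (AlgebraicClosure ℚ),
      A.LiesOverPrime (ℓ : ℕ) → (y : K.Qbar) ∈ A ∧ ((y⁻¹ : K.Qbarˣ) : K.Qbar) ∈ A := by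
  constructor
  · intro h ℓ hℓ A hA
    exact h A (K.GO3H535.H371.outsideS_of_liesOver hℓ hA)
  · intro h
    apply K.GO3H535.H371.isSUnit_of_forall_liesOver
    intro q hq A hA
    rw [K.GO3H535.H371.unitAt_iff_mem y.ne_zero]
    have := h q hq A hA
    rwa [Units.val_inv_eq_inv_val] at this

/-- **The dictionary** between the `T`-units of `F` (layer G) and the `S`-units of `ℚ̄`
(layer K). -/
theorem mem_sUnits_primesT_iff (hF : F.IsUnramifiedOutside S) (x : Additive Fˣ) :
    x ∈ G.sUnits ℚ F (H419.primesT S) ↔ K.IsSUnit S (H419.unitToQbar F x.toMul) := by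
  rw [isSUnit_iff_forall_liesOver]
  have h1 := Bridge.forall_place_unit_iff_mem_sUnit
    (⟨F, hF, inferInstance⟩ : Tow.Level S) x
  rw [G.OrdH707.mem_sUnits_iff]
  have h2 : x ∈ G.sUnit S F ↔ ∀ w : HeightOneSpectrum (𝓞 F),
      w ∉ G.primesAbove ℚ F (H419.primesT S) →
        w.valuation F ((Additive.toMul x : Fˣ) : F) = 1 := by
    rw [G.mem_sUnit_iff]
    constructor
    · intro h w hw
      have hw' : ¬ G.IsAbove S F w := fun hab =>
        hw ((H419.mem_primesAbove_primesT_iff F S w).2 hab)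
      exact (G.ordAt_eq_zero_iff w x).1 (h ⟨w, hw'⟩)
    · intro h w
      rw [G.ordAt_eq_zero_iff]
      exact h w.1 (fun hab => w.2 ((H419.mem_primesAbove_primesT_iff F S w.1).1 hab))
  rw [← h2]
  exact h1.symm

end Dict

section DictMap

variable (F : IntermediateField ℚ (AlgebraicClosure ℚ)) [NumberField F] [IsGalois ℚ F]
  [FiniteDimensional ℚ F] (S : Finset Nat.Primes) (hF : F.IsUnramifiedOutside S)

/-- The element of `ℚ̄ˣ` (additively) underlying an element of `𝔼^U`. -/
def coeE (U : Subgroup PT.GQ) (e : ↥(fixU U (sUnits S))) : Additive K.Qbarˣ :=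
  ((e : (sUnits S)) : ↥(sUnitsSub S)).1

theorem coeE_injective (U : Subgroup PT.GQ) : Function.Injective (coeE S U) := by
  intro a b h
  apply Subtype.ext
  apply Subtype.ext
  exact h

theorem coeE_add (U : Subgroup PT.GQ) (a b : ↥(fixU U (sUnits S))) :
    coeE S U (a + b) = coeE S U a + coeE S U b := rfl

theorem coeE_nsmul (U : Subgroup PT.GQ) (n : ℕ) (a : ↥(fixU U (sUnits S))) :
    coeE S U (n • a) = n • coeE S U a := rfl

theorem coeE_fixUAct (U : Subgroup PT.GQ) [U.Normal] (σ : PT.GQ) (a : ↥(fixU U (sUnits S))) :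
    (coeE S U (fixUAct U (sUnits S) σ a)).toMul = σ • (coeE S U a).toMul := rfl

/-- The dictionary map `E_T(F) → 𝔼^U`. -/
def dictE : ↥(G.sUnits ℚ F (H419.primesT S)) →+ ↥(fixU F.fixingSubgroup (sUnits S)) where
  toFun x := ⟨⟨Additive.ofMul (H419.unitToQbar F (x : Additive Fˣ).toMul),
      (mem_sUnits_primesT_iff F S hF x).1 x.2⟩, by
    intro u hu
    apply Subtype.ext
    show Additive.ofMul (u • H419.unitToQbar F (x : Additive Fˣ).toMul) = _
    congr 1
    apply Units.ext
    exact hu ⟨_, ((x : Additive Fˣ).toMul : F).2⟩⟩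
  map_zero' := by
    apply coeE_injective
    show Additive.ofMul (H419.unitToQbar F (1 : Fˣ)) = 0
    rw [map_one]
    rfl
  map_add' a b := by
    apply coeE_injective
    show Additive.ofMul (H419.unitToQbar F ((a : Additive Fˣ).toMul * (b : Additive Fˣ).toMul)) = _
    rw [map_mul]
    rfl

theorem coeE_dictE (x : ↥(G.sUnits ℚ F (H419.primesT S))) :
    coeE S F.fixingSubgroup (dictE F S hF x) =
      Additive.ofMul (H419.unitToQbar F (x : Additive Fˣ).toMul) := rfl

theorem dictE_injective : Function.Injective (dictE F S hF) := by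
  intro a b h
  have h1 := congrArg (coeE S F.fixingSubgroup) h
  rw [coeE_dictE, coeE_dictE] at h1
  apply Subtype.ext
  exact Additive.toMul.injective (H419.unitToQbar_injective F (Additive.ofMul.injective h1))

theorem dictE_surjective : Function.Surjective (dictE F S hF) := by
  intro e
  have hfix : ∀ u ∈ F.fixingSubgroup,
      u (((coeE S F.fixingSubgroup e).toMul : K.Qbarˣ) : K.Qbar) =
        (((coeE S F.fixingSubgroup e).toMul : K.Qbarˣ) : K.Qbar) := by
    intro u hu
    have h1 := e.2 u hu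
    have h2 := congrArg (fun t : (sUnits S) => (((t : ↥(sUnitsSub S)).1.toMul : K.Qbarˣ) : K.Qbar)) h1
    exact h2
  have hmem : (((coeE S F.fixingSubgroup e).toMul : K.Qbarˣ) : K.Qbar) ∈ F := by
    have h3 : (((coeE S F.fixingSubgroup e).toMul : K.Qbarˣ) : K.Qbar) ∈
        IntermediateField.fixedField F.fixingSubgroup :=
      (IntermediateField.mem_fixedField_iff _ _).2 hfix
    rwa [InfiniteGalois.fixedField_fixingSubgroup F] at h3
  have hne : (⟨_, hmem⟩ : F) ≠ 0 := by
    intro h0
    have := congrArg Subtype.val h0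
    exact ((coeE S F.fixingSubgroup e).toMul : K.Qbarˣ).ne_zero this
  let z : Fˣ := Units.mk0 ⟨_, hmem⟩ hne
  have hz : H419.unitToQbar F z = (coeE S F.fixingSubgroup e).toMul := by
    apply Units.ext
    rfl
  have hzm : Additive.ofMul z ∈ G.sUnits ℚ F (H419.primesT S) := by
    rw [mem_sUnits_primesT_iff F S hF, toMul_ofMul, hz]
    exact ((e : (sUnits S)) : ↥(sUnitsSub S)).2
  refine ⟨⟨Additive.ofMul z, hzm⟩, ?_⟩
  apply coeE_injective
  rw [coeE_dictE]
  show Additive.ofMul (H419.unitToQbar F z) = _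
  rw [hz, ofMul_toMul]

/-- The dictionary is equivariant: `τ = σ|_F` on `E_T(F)` is `σ` on `𝔼^U`. -/
theorem dictE_unitsHom (σ : PT.GQ) (a b : ↥(G.sUnits ℚ F (H419.primesT S)))
    (hab : (b : Additive Fˣ) = G.unitsHom ℚ F (H419.resF F σ) a) :
    dictE F S hF b = fixUAct F.fixingSubgroup (sUnits S) σ (dictE F S hF a) := by
  apply coeE_injective
  apply Additive.toMul.injective
  rw [coeE_fixUAct, coeE_dictE, coeE_dictE, hab]
  apply Units.ext
  exact H419.resF_apply_coe F σ _

end DictMap

end Fermat.Agent.S56.Euler.H184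

end
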