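/-
S56 / W-BASE / Euler characteristic, leaf EUL-KUM (helper184), part 1: the ABSTRACT Kummer model.

`L` a level system on a group `G`; `M` a representation over a field `k`, `E` a representation
over a commutative ring `k'` (think `M = Ind_U μ_p`, `E = Ind_U 𝔼`), `ι : M →+ E` an injective
equivariant additive map whose image is the `p`-torsion of `E`, `p • M = 0`, and the smooth part
of `E` is `p`-divisible (KUM).  Then the connecting map of `0 → M → E → E`

  `kumDelta : E^G →+ H¹_L(M)`,   `e ↦ [c]`,  `ι ∘ c = d y`,  `p • y = e`, `y` smooth,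

* is well defined and additive (`kumDelta_eq`),
* has kernel `p • E^G` (`kumDelta_eq_zero_iff`),
* is onto as soon as `H¹_L(E)[p] = 0` in cochain form (`kumDelta_surjective`),
* is natural for every pair of equivariant endomorphisms `(R_M, R_E)` compatible with `ι`
  (`kumDelta_natural`).
-/
import Fermat.Agent.S55.K.FinH541

set_option autoImplicit false
set_option linter.unusedSectionVars false
set_option linter.style.haveILetI false

noncomputable section

namespace Fermat.Agent.S56.Euler.H184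

open groupCohomology Fermat.Agent.S55.PT Fermat.Agent.S55.K

section Abstract

variable {G : Type} [Group G] (L : LevelSys G)
variable {k k' : Type} [Field k] [CommRing k']
variable {M : Rep.{0, 0, 0} k G} {E : Rep.{0, 0, 0} k' G}
variable (p : ℕ) (ι : M →+ E)

/-- The hypotheses of the abstract Kummer sequence `0 → M → E → E` (multiplication by `p`),
on the smooth parts. -/
structure IsKummerSeq : Prop where
  inj : Function.Injective ι
  equi : ∀ g m, ι (M.ρ g m) = E.ρ g (ι m)
  tors : ∀ e : E, p • e = 0 → ∃ m, ι m = e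
  kum : ∀ x : E, H397.Sm L E x → ∃ y : E, p • y = x ∧ H397.Sm L E y
  killed : ∀ m : M, p • m = 0

variable {L p ι}

/-- An invariant is smooth. -/
lemma sm_of_invariant (e : E) (he : ∀ g : G, E.ρ g e = e) : H397.Sm L E e := by
  obtain ⟨U, hU⟩ := L.nonempty
  exact ⟨U, hU, fun s _ => he s⟩

lemma nsmul_d₀₁ (y : E) (g : G) : p • ((d₀₁ E).hom y g) = (d₀₁ E).hom (p • y) g := by
  simp only [d₀₁_hom_apply]
  rw [smul_sub, ← map_nsmul]

/-- Existence of a Kummer cocycle of an invariant. -/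
lemma IsKummerSeq.exists_cocycle (h : IsKummerSeq L p ι) (e : E) (he : ∀ g : G, E.ρ g e = e) :
    ∃ (y : E) (c : ↥(L.Z1 M)), p • y = e ∧ H397.Sm L E y ∧
      ∀ g, ι ((c : G → M) g) = (d₀₁ E).hom y g := by
  obtain ⟨y, hy, hysm⟩ := h.kum e (sm_of_invariant e he)
  obtain ⟨c, hc⟩ := H541.exists_lift_Z1 (L := L) p ι h.inj h.equi h.tors ((d₀₁ E).hom y)
    (H541.d01_mem_cocycles₁ y) (H541.d01_isLC y hysm) (fun g => by
      rw [nsmul_d₀₁, hy, d₀₁_hom_apply, he g, sub_self])
  exact ⟨y, c, hy, hysm, hc⟩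

/-- Two Kummer cocycles of the same invariant are cohomologous. -/
lemma IsKummerSeq.cocycle_unique (h : IsKummerSeq L p ι) {y y' : E} {c c' : ↥(L.Z1 M)}
    (hy : p • y = p • y') (hc : ∀ g, ι ((c : G → M) g) = (d₀₁ E).hom y g)
    (hc' : ∀ g, ι ((c' : G → M) g) = (d₀₁ E).hom y' g) :
    L.H1π M c = L.H1π M c' := by
  obtain ⟨m, hm⟩ := h.tors (y - y') (by rw [smul_sub, hy, sub_self])
  have hsub : L.H1π M (c - c') = 0 := by
    rw [LevelSys.H1π_eq_zero_iff]
    refine ⟨m, ?_⟩
    funext g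
    apply h.inj
    have h1 : ((c - c' : ↥(L.Z1 M)) : G → M) g = (c : G → M) g - (c' : G → M) g := rfl
    rw [h1, map_sub, hc g, hc' g, d₀₁_hom_apply, map_sub, h.equi, hm]
    simp only [d₀₁_hom_apply, map_sub]
    abel
  rw [map_sub, sub_eq_zero] at hsub
  exact hsub

variable (L p ι)

/-- The Kummer class of an invariant (junk value `0` outside the hypotheses). -/
def kumClass (h : IsKummerSeq L p ι) (e : ↥(LevelSys.H0 E)) : L.H1 M :=
  L.H1π M (Classical.choose (Classical.choose_spec (h.exists_cocycle e.1 e.2)))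

variable {L p ι}

/-- Characterisation of the Kummer class. -/
theorem kumClass_eq (h : IsKummerSeq L p ι) (e : ↥(LevelSys.H0 E)) (y : E) (c : ↥(L.Z1 M))
    (hy : p • y = e.1) (hc : ∀ g, ι ((c : G → M) g) = (d₀₁ E).hom y g) :
    kumClass L p ι h e = L.H1π M c := by
  have hs := Classical.choose_spec (Classical.choose_spec (h.exists_cocycle e.1 e.2))
  exact h.cocycle_unique (hs.1.trans hy.symm) hs.2.2 hc

variable (L p ι)

/-- **The Kummer map** `E^G →+ H¹_L(M)`. -/
def kumDelta (h : IsKummerSeq L p ι) : ↥(LevelSys.H0 E) →+ L.H1 M where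
  toFun := kumClass L p ι h
  map_zero' := by
    have h0 : ∀ g, ι (((0 : ↥(L.Z1 M)) : G → M) g) = (d₀₁ E).hom (0 : E) g := by
      intro g
      simp
    rw [kumClass_eq h 0 0 0 (by simp) h0, map_zero]
  map_add' := by
    intro e e'
    obtain ⟨y, c, hy, -, hc⟩ := h.exists_cocycle e.1 e.2
    obtain ⟨y', c', hy', -, hc'⟩ := h.exists_cocycle e'.1 e'.2
    rw [kumClass_eq h e y c hy hc, kumClass_eq h e' y' c' hy' hc',
      kumClass_eq h (e + e') (y + y') (c + c') (by rw [smul_add, hy, hy']; rfl) (by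
        intro g
        have h1 : ((c + c' : ↥(L.Z1 M)) : G → M) g = (c : G → M) g + (c' : G → M) g := rfl
        rw [h1, map_add, hc g, hc' g]
        simp only [d₀₁_hom_apply, map_add]
        abel), map_add]

variable {L p ι}

theorem kumDelta_eq (h : IsKummerSeq L p ι) (e : ↥(LevelSys.H0 E)) (y : E) (c : ↥(L.Z1 M))
    (hy : p • y = e.1) (hc : ∀ g, ι ((c : G → M) g) = (d₀₁ E).hom y g) :
    kumDelta L p ι h e = L.H1π M c :=
  kumClass_eq h e y c hy hc

/-- **Kernel of the Kummer map**: `p • E^G`. -/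
theorem kumDelta_eq_zero_iff (h : IsKummerSeq L p ι) (e : ↥(LevelSys.H0 E)) :
    kumDelta L p ι h e = 0 ↔ ∃ e' : ↥(LevelSys.H0 E), e = p • e' := by
  constructor
  · intro h0
    obtain ⟨y, c, hy, -, hc⟩ := h.exists_cocycle e.1 e.2
    rw [kumDelta_eq h e y c hy hc, LevelSys.H1π_eq_zero_iff] at h0
    obtain ⟨m, hm⟩ := h0
    have hinv : ∀ g : G, E.ρ g (y - ι m) = y - ι m := by
      intro g
      have h1 := hc g
      rw [← hm] at h1
      simp only [d₀₁_hom_apply] at h1
      rw [map_sub, h.equi] at h1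
      rw [map_sub]
      have h2 : E.ρ g y - E.ρ g (ι m) - (y - ι m) = (E.ρ g y - y) - (E.ρ g (ι m) - ι m) := by
        abel
      exact sub_eq_zero.1 (by rw [h2, h1, sub_self])
    refine ⟨⟨y - ι m, hinv⟩, Subtype.ext ?_⟩
    show e.1 = p • (y - ι m)
    rw [smul_sub, hy, ← map_nsmul, h.killed m, map_zero, sub_zero]
  · rintro ⟨e', rfl⟩
    have h0 : ∀ g, ι (((0 : ↥(L.Z1 M)) : G → M) g) = (d₀₁ E).hom e'.1 g := by
      intro g
      simp only [d₀₁_hom_apply]
      rw [e'.2 g, sub_self]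
      simp
    rw [kumDelta_eq h (p • e') e'.1 0 rfl h0, map_zero]

/-- **Image of the Kummer map**: the classes which die in `H¹_L(E)`. -/
theorem mem_range_kumDelta_iff (h : IsKummerSeq L p ι) (c : ↥(L.Z1 M)) :
    L.H1π M c ∈ Set.range (kumDelta L p ι h) ↔
      (fun g => ι ((c : G → M) g)) ∈ LevelSys.B1 E := by
  constructor
  · rintro ⟨e, he⟩
    obtain ⟨y, c', hy, -, hc'⟩ := h.exists_cocycle e.1 e.2
    rw [kumDelta_eq h e y c' hy hc'] at he
    have hsub : L.H1π M (c' - c) = 0 := by rw [map_sub, he, sub_self]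
    rw [LevelSys.H1π_eq_zero_iff] at hsub
    obtain ⟨m, hm⟩ := hsub
    refine ⟨y - ι m, ?_⟩
    funext g
    have h1 := congrFun hm g
    have h2 : ((c' - c : ↥(L.Z1 M)) : G → M) g = (c' : G → M) g - (c : G → M) g := rfl
    rw [h2] at h1
    have h3 : (c : G → M) g = (c' : G → M) g - (d₀₁ M).hom m g := by rw [h1]; abel
    show (d₀₁ E).hom (y - ι m) g = ι ((c : G → M) g)
    have h4 : ι ((c : G → M) g) = ι ((c' : G → M) g) - ι ((d₀₁ M).hom m g) := by
      rw [h3, map_sub]
    rw [h4, hc' g]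
    simp only [d₀₁_hom_apply, map_sub, h.equi]
    abel
  · rintro ⟨y, hy⟩
    have hyc : ∀ g, ι ((c : G → M) g) = (d₀₁ E).hom y g := fun g => (congrFun hy g).symm
    have hinv : ∀ g : G, E.ρ g (p • y) = p • y := by
      intro g
      have h1 : (d₀₁ E).hom (p • y) g = 0 := by
        rw [← nsmul_d₀₁, ← hyc g, ← map_nsmul, h.killed, map_zero]
      simp only [d₀₁_hom_apply] at h1
      exact sub_eq_zero.1 h1
    exact ⟨⟨p • y, hinv⟩, kumDelta_eq h ⟨p • y, hinv⟩ y c rfl hyc⟩

/-- **Surjectivity of the Kummer map** when `H¹_L(E)` has no `p`-torsion (cochain form). -/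
theorem kumDelta_surjective (h : IsKummerSeq L p ι)
    (hcl : ∀ z ∈ L.Z1 E, p • z ∈ LevelSys.B1 E → z ∈ LevelSys.B1 E) :
    Function.Surjective (kumDelta L p ι h) := by
  intro x
  obtain ⟨c, rfl⟩ := L.H1π_surjective M x
  refine (mem_range_kumDelta_iff h c).2 (hcl _ ?_ ?_)
  · refine ⟨?_, ?_⟩
    · refine (mem_cocycles₁_iff (fun g => ι ((c : G → M) g))).2 fun g g' => ?_
      have h1 := (mem_cocycles₁_iff (c : G → M)).1 c.2.1 g g'
      show ι ((c : G → M) (g * g')) = E.ρ g (ι ((c : G → M) g')) + ι ((c : G → M) g)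
      rw [h1, map_add, h.equi]
    · exact LevelSys.IsLC₁.comp c.2.2 ι
  · refine ⟨0, ?_⟩
    funext g
    show (d₀₁ E).hom 0 g = p • ι ((c : G → M) g)
    rw [← map_nsmul, h.killed, map_zero, map_zero]
    rfl

/-- **Naturality of the Kummer map** for a compatible pair of equivariant endomorphisms. -/
theorem kumDelta_natural (h : IsKummerSeq L p ι) (RM : M →ₗ[k] M) (hRM : IsEquivariant RM)
    (RE : E →+ E) (hRE : ∀ g e, RE (E.ρ g e) = E.ρ g (RE e)) (hcomp : ∀ m, ι (RM m) = RE (ι m))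
    (e e' : ↥(LevelSys.H0 E)) (he : e'.1 = RE e.1) :
    kumDelta L p ι h e' = pushH1 RM hRM L (kumDelta L p ι h e) := by
  obtain ⟨y, c, hy, -, hc⟩ := h.exists_cocycle e.1 e.2
  rw [kumDelta_eq h e y c hy hc, pushH1_mk]
  refine kumDelta_eq h e' (RE y) _ (by rw [← map_nsmul, hy, he]) ?_
  intro g
  rw [coe_pushZ1, Function.comp_apply, hcomp, hc g]
  simp only [d₀₁_hom_apply, map_sub, hRE]

end Abstract

end Fermat.Agent.S56.Euler.H184

end
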