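/-
S56 / W-BASE / Euler characteristic, leaf EUL-KUM (helper184), part 2: induced modules.

For `U` normal of finite index in `G` and a representation `A` over a commutative ring:
* `fixU U A` : the `U`-fixed vectors, with the action `fixUAct U A σ` of `σ : G`;
* `rTr U A σ` : right translation by `σ⁻¹` on `K.indG U A = (G ⧸ U →₀ A)` (the same formula as
  helper419's `indR`, for arbitrary coefficient rings), equivariant;
* `toInv U A : A^U ≃ (Ind_U A)^G` (`toInv_bijective`), `a ↦ (gU ↦ g a)`, which turns the action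
  of `σ` into the right translation (`rTr_toInv`).
-/
import Fermat.Agent.S56.Euler.H184.KumAbs
import Fermat.Agent.S56.H419.H0Ind

set_option autoImplicit false
set_option linter.unusedSectionVars false
set_option linter.style.haveILetI false

noncomputable section

namespace Fermat.Agent.S56.Euler.H184

open groupCohomology Fermat.Agent.S55.PT Fermat.Agent.S55.K

section Ind

variable {G : Type} [Group G] {k' : Type} [CommRing k'] (U : Subgroup G)
  (A : Rep.{0, 0, 0} k' G)

/-- The `U`-fixed vectors of `A`. -/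
def fixU : Submodule k' A where
  carrier := {a | ∀ u ∈ U, A.ρ u a = a}
  add_mem' := by
    intro a b ha hb u hu
    rw [map_add, ha u hu, hb u hu]
  zero_mem' := by
    intro u _
    rw [map_zero]
  smul_mem' := by
    intro c a ha u hu
    rw [map_smul, ha u hu]

variable {U A} in
theorem mem_fixU {a : A} : a ∈ fixU U A ↔ ∀ u ∈ U, A.ρ u a = a := Iff.rfl

/-- `A^U` is stable under `G` when `U` is normal. -/
theorem ρ_mem_fixU [U.Normal] (σ : G) {a : A} (ha : a ∈ fixU U A) : A.ρ σ a ∈ fixU U A := by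
  intro u hu
  have h1 : σ⁻¹ * u * σ ∈ U := by
    have := (inferInstance : U.Normal).conj_mem u hu σ⁻¹
    simpa using this
  have h2 : u * σ = σ * (σ⁻¹ * u * σ) := by group
  calc A.ρ u (A.ρ σ a) = A.ρ (u * σ) a := by rw [map_mul]; rfl
    _ = A.ρ (σ * (σ⁻¹ * u * σ)) a := by rw [h2]
    _ = A.ρ σ (A.ρ (σ⁻¹ * u * σ) a) := by rw [map_mul]; rfl
    _ = A.ρ σ a := by rw [ha _ h1]

/-- The action of `σ` on `A^U` (`U` normal). -/
def fixUAct [U.Normal] (σ : G) : ↥(fixU U A) →ₗ[k'] ↥(fixU U A) :=
  (A.ρ σ).restrict fun _ hm => ρ_mem_fixU U A σ hm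

@[simp] theorem coe_fixUAct [U.Normal] (σ : G) (a : ↥(fixU U A)) :
    (fixUAct U A σ a : A) = A.ρ σ a.1 := rfl

/-- Evaluation of the diagonal action on `Ind_U A`. -/
theorem indρ_apply_smul (g : G) (f : (G ⧸ U) →₀ A) (x : G ⧸ U) :
    (indρ (MonoidHom.id G) U A g f) (g • x) = A.ρ g (f x) := by
  show ((Finsupp.lmapDomain A k' (fun x : G ⧸ U => g • x)).comp
    (Finsupp.mapRange.linearMap (A.ρ g))) f (g • x) = _
  rw [LinearMap.comp_apply, Finsupp.lmapDomain_apply,
    Finsupp.mapDomain_apply (MulAction.injective g), Finsupp.mapRange.linearMap_apply,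
    Finsupp.mapRange_apply]

/-- `g` fixes `f` iff `f (g • x) = g (f x)` for all `x`. -/
theorem indρ_eq_self_iff (g : G) (f : (G ⧸ U) →₀ A) :
    indρ (MonoidHom.id G) U A g f = f ↔ ∀ x : G ⧸ U, f (g • x) = A.ρ g (f x) := by
  constructor
  · intro h x
    rw [← indρ_apply_smul U A g f x, h]
  · intro h
    ext x
    have hx : x = g • (g⁻¹ • x) := by rw [smul_inv_smul]
    rw [hx, indρ_apply_smul, h]

theorem mem_H0_indG_iff (f : (G ⧸ U) →₀ A) :
    (f : indG U A) ∈ LevelSys.H0 (indG U A) ↔
      ∀ (g : G) (x : G ⧸ U), f (g • x) = A.ρ g (f x) := by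
  constructor
  · intro h g
    exact (indρ_eq_self_iff U A g f).1 (h g)
  · intro h g
    exact (indρ_eq_self_iff U A g f).2 (h g)

/-- the function `gU ↦ g a` attached to a `U`-fixed vector `a` -/
def orbFun (a : ↥(fixU U A)) : G ⧸ U → A :=
  Quotient.lift (s := QuotientGroup.leftRel U) (fun g : G => A.ρ g a.1) (by
    intro x y hxy'
    have hxy : x⁻¹ * y ∈ U := QuotientGroup.leftRel_apply.mp hxy'
    have hy : y = x * (x⁻¹ * y) := by group
    show A.ρ x a.1 = A.ρ y a.1
    conv_rhs => rw [hy, map_mul]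
    show A.ρ x a.1 = A.ρ x (A.ρ (x⁻¹ * y) a.1)
    rw [a.2 _ hxy])

@[simp] theorem orbFun_mk (a : ↥(fixU U A)) (g : G) :
    orbFun U A a (g : G ⧸ U) = A.ρ g a.1 := rfl

theorem orbFun_smul (a : ↥(fixU U A)) (g : G) (x : G ⧸ U) :
    orbFun U A a (g • x) = A.ρ g (orbFun U A a x) := by
  induction x using QuotientGroup.induction_on with
  | H b =>
    show A.ρ (g * b) a.1 = A.ρ g (A.ρ b a.1)
    rw [map_mul]; rfl

/-- The element `∑_{gU} gU ⊗ g a` of `Ind_U A` attached to a `U`-fixed vector. -/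
def toIndFun [U.FiniteIndex] (a : ↥(fixU U A)) : (G ⧸ U) →₀ A :=
  Finsupp.equivFunOnFinite.symm (orbFun U A a)

theorem toIndFun_apply [U.FiniteIndex] (a : ↥(fixU U A)) (x : G ⧸ U) :
    toIndFun U A a x = orbFun U A a x := rfl

theorem toIndFun_mem [U.FiniteIndex] (a : ↥(fixU U A)) :
    (toIndFun U A a : indG U A) ∈ LevelSys.H0 (indG U A) := by
  rw [mem_H0_indG_iff]
  intro g x
  rw [toIndFun_apply, toIndFun_apply]
  exact orbFun_smul U A a g x

/-- **Shapiro in degree 0**: `A^U → (Ind_U A)^G`. -/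
def toInv [U.FiniteIndex] : ↥(fixU U A) →+ ↥(LevelSys.H0 (indG U A)) where
  toFun a := ⟨toIndFun U A a, toIndFun_mem U A a⟩
  map_zero' := by
    apply Subtype.ext
    apply Finsupp.ext
    intro x
    induction x using QuotientGroup.induction_on with
    | H g =>
      show A.ρ g (0 : A) = 0
      rw [map_zero]
  map_add' a b := by
    apply Subtype.ext
    apply Finsupp.ext
    intro x
    induction x using QuotientGroup.induction_on with
    | H g =>
      show A.ρ g (a.1 + b.1) = A.ρ g a.1 + A.ρ g b.1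
      rw [map_add]

/-- The underlying finitely supported function of an invariant of `Ind_U A`. -/
def fsOf (f : ↥(LevelSys.H0 (indG U A))) : (G ⧸ U) →₀ A := f.1

theorem fsOf_injective : Function.Injective (fsOf U A) := fun _ _ h => Subtype.ext h

theorem fsOf_smul (f : ↥(LevelSys.H0 (indG U A))) (g : G) (x : G ⧸ U) :
    fsOf U A f (g • x) = A.ρ g (fsOf U A f x) :=
  (mem_H0_indG_iff U A f.1).1 f.2 g x

theorem fsOf_toInv [U.FiniteIndex] (a : ↥(fixU U A)) :
    fsOf U A (toInv U A a) = toIndFun U A a := rfl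

theorem toInv_apply_mk [U.FiniteIndex] (a : ↥(fixU U A)) (g : G) :
    fsOf U A (toInv U A a) (g : G ⧸ U) = A.ρ g a.1 := rfl

theorem toInv_apply_one [U.FiniteIndex] (a : ↥(fixU U A)) :
    fsOf U A (toInv U A a) ((1 : G) : G ⧸ U) = a.1 := by
  rw [toInv_apply_mk, map_one]
  rfl

theorem toInv_injective [U.FiniteIndex] : Function.Injective (toInv U A) := by
  intro a b h
  apply Subtype.ext
  rw [← toInv_apply_one U A a, ← toInv_apply_one U A b, h]

theorem toInv_surjective [U.FiniteIndex] : Function.Surjective (toInv U A) := by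
  intro f
  have hf := fsOf_smul U A f
  have h1 : fsOf U A f ((1 : G) : G ⧸ U) ∈ fixU U A := by
    intro u hu
    rw [← hf u ((1 : G) : G ⧸ U)]
    congr 1
    show ((u * 1 : G) : G ⧸ U) = ((1 : G) : G ⧸ U)
    rw [mul_one, QuotientGroup.eq]
    simpa using hu
  refine ⟨⟨_, h1⟩, ?_⟩
  apply fsOf_injective
  apply Finsupp.ext
  intro x
  induction x using QuotientGroup.induction_on with
  | H g =>
    rw [toInv_apply_mk]
    show A.ρ g (fsOf U A f ((1 : G) : G ⧸ U)) = _
    rw [← hf g ((1 : G) : G ⧸ U)]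
    congr 1
    show ((g * 1 : G) : G ⧸ U) = (g : G ⧸ U)
    rw [mul_one]

theorem toInv_nsmul [U.FiniteIndex] (n : ℕ) (a : ↥(fixU U A)) :
    toInv U A (n • a) = n • toInv U A a := map_nsmul _ _ _

/-! ### right translations -/

/-- Right translation by `σ⁻¹` on `Ind_U A`: `single (gU) a ↦ single (g σ⁻¹ U) a`. -/
def rTr [U.Normal] (σ : G) : ((G ⧸ U) →₀ A) →ₗ[k'] ((G ⧸ U) →₀ A) :=
  Finsupp.lmapDomain A k' (Fermat.Agent.S56.H419.rightTr U σ)

@[simp] theorem rTr_single [U.Normal] (σ : G) (x : G ⧸ U) (a : A) :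
    rTr U A σ (Finsupp.single x a) =
      Finsupp.single (Fermat.Agent.S56.H419.rightTr U σ x) a := by
  rw [rTr, Finsupp.lmapDomain_apply, Finsupp.mapDomain_single]

theorem rTr_apply [U.Normal] (σ : G) (f : (G ⧸ U) →₀ A) (x : G ⧸ U) :
    rTr U A σ f x = f (x * (σ : G ⧸ U)) := by
  show Finsupp.mapDomain (Fermat.Agent.S56.H419.rightTr U σ) f x = _
  have h := Finsupp.mapDomain_apply (Fermat.Agent.S56.H419.rightTr U σ).injective f
    (x * (σ : G ⧸ U))
  rw [← h]
  congr 1
  simp

/-- Right translations commute with the diagonal action. -/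
theorem rTr_equivariant [U.Normal] (σ g : G) (f : (G ⧸ U) →₀ A) :
    rTr U A σ (indρ (MonoidHom.id G) U A g f) = indρ (MonoidHom.id G) U A g (rTr U A σ f) := by
  have h : (rTr U A σ) ∘ₗ (indρ (MonoidHom.id G) U A g) =
      (indρ (MonoidHom.id G) U A g) ∘ₗ (rTr U A σ) := by
    apply Finsupp.lhom_ext
    intro x a
    rw [LinearMap.comp_apply, LinearMap.comp_apply, indρ_single, rTr_single, rTr_single,
      indρ_single]
    congr 1
    exact Fermat.Agent.S56.H419.rightTr_smul U σ g x
  exact LinearMap.congr_fun h f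

/-- **Intertwining**: under `A^U ≃ (Ind_U A)^G` the action of `σ` is the right translation. -/
theorem rTr_toInv [U.Normal] [U.FiniteIndex] (σ : G) (a : ↥(fixU U A)) :
    rTr U A σ (fsOf U A (toInv U A a)) = fsOf U A (toInv U A (fixUAct U A σ a)) := by
  apply Finsupp.ext
  intro x
  induction x using QuotientGroup.induction_on with
  | H g =>
    rw [rTr_apply, toInv_apply_mk]
    show fsOf U A (toInv U A a) ((g * σ : G) : G ⧸ U) = A.ρ g (A.ρ σ a.1)
    rw [toInv_apply_mk, map_mul]
    rfl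

/-- Right translations commute with coefficient maps. -/
theorem rTr_mapRange [U.Normal] {k'' : Type} [CommRing k''] (B : Rep.{0, 0, 0} k'' G)
    (φ : A →+ B) (σ : G) (f : (G ⧸ U) →₀ A) :
    Finsupp.mapRange.addMonoidHom φ (rTr U A σ f) =
      rTr U B σ (Finsupp.mapRange.addMonoidHom φ f) := by
  induction f using Finsupp.induction_linear with
  | zero => simp
  | add v w hv hw => simp only [map_add, hv, hw]
  | single x a =>
    rw [rTr_single, Finsupp.mapRange.addMonoidHom_apply, Finsupp.mapRange_single,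
      Finsupp.mapRange.addMonoidHom_apply, Finsupp.mapRange_single, rTr_single]

end Ind

end Fermat.Agent.S56.Euler.H184

end
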